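/-
MLT / Fr3 (helper9): fork of `Lib/Ihara/Sc/Field.lean` for `p = 3` (generated by a rename
script from the frozen file: only the declarations depending on `IhfLevel` / `IsUnit 3` are repeated, with
the prefix `ih`/`Ih` replaced by `jh`/`Jh`; the level hypothesis is `JhfLevel`, see `Fr3/Fr/Three.lean`).
-/
import Mathlib
import Fermat.Agent.Lib.Ihara.Sc.Point
import Fermat.Agent.Lib.Ihara.Sc.Main
import Fermat.Agent.Lib.Ihara.Hm.ProjPart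
import Fermat.Agent.Lib.MLT.Fr3.Hm.ProjPart
import Fermat.Agent.Lib.Ihara.Hm.Nil
import Fermat.Agent.Lib.MLT.Fr3.Hm.Nil
import Fermat.Agent.Lib.Ihara.Pc.Main
import Fermat.Agent.Lib.MLT.Fr3.Fr.Control
import Fermat.Agent.Lib.MLT.Fr3.Fr.Cyc
import Fermat.Agent.Lib.MLT.Fr3.Fr.Defs
import Fermat.Agent.Lib.MLT.Fr3.Fr.Free
import Fermat.Agent.Lib.MLT.Fr3.Fr.Ind
import Fermat.Agent.Lib.MLT.Fr3.Fr.Main
import Fermat.Agent.Lib.MLT.Fr3.Fr.Ops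
import Fermat.Agent.Lib.MLT.Fr3.Fr.Red
import Fermat.Agent.Lib.MLT.Fr3.Fr.ToolB
import Fermat.Agent.Lib.MLT.Fr3.Hm.ChiPart
import Fermat.Agent.Lib.MLT.Fr3.Hm.Dia
import Fermat.Agent.Lib.MLT.Fr3.Hm.Part
import Fermat.Agent.Lib.MLT.Fr3.Hm.PartT
import Fermat.Agent.Lib.MLT.Fr3.Hm.Top
import Fermat.Agent.Lib.Ihara.Sc.Field

set_option autoImplicit false
set_option linter.unusedSectionVars false
set_option linter.unusedVariables false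
set_option linter.style.haveILetI false

open Matrix MatrixGroups CongruenceSubgroup ModularCurve ModularCurve.Period Module IsLocalRing
open Fermat.Agent.DS Fermat.Agent.T1 Fermat.Agent.T1G Fermat.Agent.T2 Fermat.Agent.S53Lib
  Fermat.Agent.TW
open scoped TensorProduct

namespace Fermat.Agent.Ihara

local notation "Qbar" => AlgebraicClosure ℚ
local notation "GQ" => (AlgebraicClosure ℚ ≃ₐ[ℚ] AlgebraicClosure ℚ)

open Fermat.Agent.Alpha (AlpqPoint)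

section Field

variable (O : Type) [CommRing O] [IsDomain O] [IsDiscreteValuationRing O] [CharZero O]
  [IsAdicComplete (maximalIdeal O) O] [Finite (ResidueField O)]
  (M : ℕ) [NeZero M] (hM : 6 ≤ M) (H : Subgroup (ZMod M)ˣ) (Ps : Set ℕ) (θ : ℕ → O)
  (Δ₁ : Subgroup ((ZMod M)ˣ ⧸ H)) (χ : Δ₁ →* O)
  (Δ₁' : Subgroup ((ZMod M)ˣ ⧸ H)) (χ' : Δ₁' →* O)
  (hle : Δ₁ ≤ Δ₁') (hχ : ∀ g : Δ₁, χ' ⟨g, hle g.2⟩ = χ g)
  (γ : (ZMod M)ˣ ⧸ H) (hγ : γ ∈ Δ₁') (hγ1 : χ' ⟨γ, hγ⟩ = 1)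
  (hsup : Δ₁' ≤ Δ₁ ⊔ Subgroup.zpowers γ)

include hle hχ hγ hγ1 hsup in
/-- **(H) [SC]: the field (SC) of `IhaHecke`** -/
theorem jhsc_field {p : ℕ} [hp : Fact p.Prime] (hL : JhfLevel p M H)
    (hpO : (p : O) ∈ maximalIdeal O)
    [Module.IsTorsionFree O (IhmChiPart O M hM H Ps θ Δ₁' χ')]
    {A : Type} [CommRing A] [IsLocalRing A] [Algebra O A]
    (hres : Function.Surjective (residue A ∘ algebraMap O A))
    (hA : ∃ k : ℕ, maximalIdeal A ^ k ≤ (maximalIdeal O).map (algebraMap O A))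
    (ρM : A →ₐ[O] Module.End O (IhmChiPart O M hM H Ps θ Δ₁ χ))
    (hcomm : ∀ t δ, Commute (ρM t) (ihmChiDia O M hM H Ps θ Δ₁ χ δ))
    {Rl : List ℕ} {k : ℕ → ℕ} (hyp : IhtcHyp M H Rl k) {q : ℕ} (hq : q ∈ Rl) (hqp : q ≠ p)
    (hne : Rl.erase q ≠ []) {N' : ℕ} (hN' : N' = M * Rl.prod)
    (S : Finset ℕ) (hpS : p ∈ S) (hNS : ∀ ℓ : ℕ, ℓ.Prime → ℓ ∣ N' → ℓ ∈ S)
    (hιq : ∀ u : (ZMod q)ˣ, ∃ n : ℕ,
      ((ihtcIota M q u : (ZMod M)ˣ) : (ZMod M)ˣ ⧸ H) = γ ^ n)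
    (tT : ℕ → A)
    (hρT : ∀ ℓ : ℕ, ℓ.Prime → ℓ ∉ S → ρM (tT ℓ) = ihmChiOp O M hM H Ps θ Δ₁ χ ℓ *
      ihmChiDia O M hM H Ps θ Δ₁ χ ((ihtcZ M Rl k ℓ : (ZMod M)ˣ) : (ZMod M)ˣ ⧸ H))
    (rA : GQ →* Matrix (Fin 2) (Fin 2) A) (hcts : MatCts A rA)
    (habs : (ofMat rA hcts).residual.IsAbsolutelyIrreducible)
    (hfr : ∀ ℓ : ℕ, ℓ.Prime → ℓ ∉ S → ∀ P : ValuationSubring Qbar, P.LiesOverPrime ℓ →
      ∀ σ : GQ, P.IsFrobeniusAt σ ℓ → (rA σ).trace = tT ℓ ∧ (rA σ).det = (ℓ : A))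
    (hqPs : q ∈ Ps) (hθq : IsUnit (θ q)) (hθq2 : IsUnit (1 - θ q ^ 2))
    (hq1 : ((q : ℕ) : O) - 1 ∈ maximalIdeal O)
    (P : ValuationSubring Qbar) (hP : P.LiesOverPrime q) (σ : GQ)
    (hσ : σ ∈ P.inertiaSubgroupIn ℚ)
    (e : Matrix (Fin 2) (Fin 2) A) (he : e.trace = 1) (aq : A) (haq : aq = (e * rA σ).trace)
    (c : ℕ) (haqc : aq ^ (p ^ c) = 1)
    (v : IhmChiPart O M hM H Ps θ Δ₁ χ) :
    ∃ u, ρM aq v - v = ihmChiDia O M hM H Ps θ Δ₁ χ γ u - u := by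
  classical
  have hπsurj := ihmChiPartProj_surjective O M hM H Ps θ Δ₁ χ Δ₁' χ' hle hχ
  have hker := ihmChiPartProj_ker_le O M hM H Ps θ Δ₁ χ Δ₁' χ' hle hχ γ hγ hγ1 hsup
  obtain ⟨ρM', hρπ⟩ := ihm_chi_part_exists_action O M hM H Ps θ Δ₁ χ Δ₁' χ' hle hχ γ hγ hγ1 hsup
    ρM (fun t => hcomm t γ)
  have hG' : ∀ g : (ZMod M)ˣ ⧸ H, ∃ c : ℕ, g ^ (p ^ c) = 1 := fun g => jhm_quot_pow M H hL g
  have hcomm' : ∀ t g, Commute (ρM' t) (ihmChiDia O M hM H Ps θ Δ₁' χ' g) := fun t g =>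
    ihm_quot_action_commute ρM _ hπsurj ρM' hρπ (ihmChiDia O M hM H Ps θ Δ₁ χ g)
      (ihmChiDia O M hM H Ps θ Δ₁' χ' g)
      (ihmChiPartProj_dia O M hM H Ps θ Δ₁ χ Δ₁' χ' hle hχ g) t (hcomm t g)
  -- the Hecke operators on `M^χ'`
  have hρT' : ∀ ℓ : ℕ, ℓ.Prime → ℓ ∉ S → ρM' (tT ℓ) = ihmChiOp O M hM H Ps θ Δ₁' χ' ℓ *
      ihmChiDia O M hM H Ps θ Δ₁' χ' ((ihtcZ M Rl k ℓ : (ZMod M)ˣ) : (ZMod M)ˣ ⧸ H) := by
    intro ℓ hℓ hℓS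
    refine LinearMap.ext fun x => ?_
    obtain ⟨w, rfl⟩ := hπsurj x
    rw [← hρπ, hρT ℓ hℓ hℓS, Module.End.mul_apply, Module.End.mul_apply, ihmChiPartProj_op,
      ihmChiPartProj_dia]
  -- `γ` acts trivially on `M^χ'`
  have hγone : ihmChiDia O M hM H Ps θ Δ₁' χ' γ = 1 := by
    refine LinearMap.ext fun x => ?_
    have h1 := ihmChiDia_of_mem O M hM H Ps θ Δ₁' χ' ⟨γ, hγ⟩ x
    rw [hγ1, one_smul] at h1
    rw [Module.End.one_apply]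
    exact h1
  haveI : Module.Finite O (IhmChiPart O M hM H Ps θ Δ₁' χ') := inferInstance
  refine ihsc_main (G' := (ZMod M)ˣ ⧸ H) hp.out hpO hres hA ρM (ihmChiDia O M hM H Ps θ Δ₁ χ γ)
    (ihmChiPartProj O M hM H Ps θ Δ₁ χ Δ₁' χ' hle hχ) hker ρM' hρπ hG'
    (ihmChiDia O M hM H Ps θ Δ₁' χ') hcomm' aq c haqc ?_ v
  intro Pt χg y hy0 hyA hyG
  haveI : Module.IsTorsionFree O Pt.R :=
    Module.isTorsionFree_iff_algebraMap_injective.mpr Pt.inj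
  haveI : Module.Free O Pt.R := Module.free_of_finite_type_torsion_free'
  haveI : Module.Free O (IhmChiPart O M hM H Ps θ Δ₁' χ') :=
    Module.free_of_finite_type_torsion_free'
  haveI : Module.IsTorsionFree Pt.R (Pt.R ⊗[O] IhmChiPart O M hM H Ps θ Δ₁' χ') := inferInstance
  have hcancel : ∀ r : Pt.R, r • y = 0 → r = 0 := fun r hr =>
    (smul_eq_zero.mp hr).resolve_right hy0
  -- the class
  obtain ⟨cl, hc0, hcD, hcT, hcN⟩ := ihpc_core O M hM H Ps θ Δ₁' χ' Pt.R (ihtcZ M Rl k)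
    {ℓ | ℓ.Prime ∧ ℓ ∉ S} y hy0 (fun ℓ => Pt.ψ (tT ℓ))
    (fun ℓ hℓ => by rw [← hρT' ℓ hℓ.1 hℓ.2]; exact hyA (tT ℓ)) χg hyG
  -- the diamond character
  have hχgγ : χg γ = 1 := by
    have h1 := hyG γ
    rw [hγone, Module.End.one_eq_id, LinearMap.baseChange_id, LinearMap.id_apply] at h1
    have h2 : (χg γ - 1) • y = 0 := by
      have h3 : (χg γ - 1) • y = χg γ • y - y := by module
      rw [h3, ← h1, sub_self]
    exact sub_eq_zero.mp (hcancel _ h2)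
  have hpR : (p : Pt.R) ∈ maximalIdeal Pt.R := Pt.natCast_mem hpO
  have hψH : ∀ d ∈ H, (χg.comp (QuotientGroup.mk' H)) d = 1 := by
    intro d hd
    rw [MonoidHom.comp_apply, QuotientGroup.mk'_apply, (QuotientGroup.eq_one_iff d).mpr hd,
      map_one]
  have hψq : ∀ u : (ZMod q)ˣ, (χg.comp (QuotientGroup.mk' H)) (ihtcIota M q u) = 1 := by
    intro u
    obtain ⟨n, hn⟩ := hιq u
    rw [MonoidHom.comp_apply, QuotientGroup.mk'_apply, hn, map_pow, hχgγ, one_pow]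
  have hψ1 : ∀ d, (χg.comp (QuotientGroup.mk' H)) d - 1 ∈ maximalIdeal Pt.R := fun d =>
    ihsc_char_sub_one_mem hp.out hpR H hL.pgroup _ hψH d
  have hα : IsUnit (algebraMap O Pt.R (θ q)) := hθq.map _
  have hα2 : IsUnit (1 - algebraMap O Pt.R (θ q) ^ 2) := by
    have h1 := hθq2.map (algebraMap O Pt.R)
    rwa [map_sub, map_one, map_pow] at h1
  have hq1' : ((q : ℕ) : Pt.R) - 1 ∈ maximalIdeal Pt.R := by
    have h1 := map_nonunit (algebraMap O Pt.R) _ hq1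
    rwa [map_sub, map_one, map_natCast] at h1
  have hMN' : M ∣ N' := ⟨_, hN'⟩
  exact (ihsc_point_ker p hpR hM hyp hq hqp hne hN' S hpS hNS rA hcts habs tT hfr
    (Pt.ψ : A →+* Pt.R) Pt.isLocalHom_ψ (χg.comp (QuotientGroup.mk' H)) hψH hψq hψ1 cl hc0
    (fun d => hcD d)
    (fun ℓ hℓ hℓN' hℓS => hcT ℓ ⟨hℓ, hℓS⟩ hℓ (fun h => hℓN' (h.trans hMN')))
    (algebraMap O Pt.R (θ q)) hα hα2 hq1' (hcN q hqPs) P hP σ hσ).2 e he aq haq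

end Field

end Fermat.Agent.Ihara
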